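import Mathlib
import Fermat.Prelude.Def_FLTPrelim_Ramification

/-!
# S18 / H905 — the residue field of a valuation subring of an algebraically closed field

* `isAlgClosed_residueField` : the residue field of a valuation subring of an algebraically
  closed field is algebraically closed;
* `natCast_residue_eq_zero`  : if `A` lies over `ℓ` then `ℓ = 0` in the residue field of `A`;
* `natCast_residue_ne_zero`  : if moreover `ℓ` is prime and `ℓ ∤ n`, then `n ≠ 0` there.
-/

set_option autoImplicit false

open Polynomial

namespace Fermat.Agent.S18.H905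

variable {L : Type*} [Field L]

/-- The residue field of a valuation subring of an algebraically closed field is algebraically
closed. -/
theorem isAlgClosed_residueField [IsAlgClosed L] (A : ValuationSubring L) :
    IsAlgClosed (IsLocalRing.ResidueField A) := by
  refine IsAlgClosed.of_exists_root _ ?_
  intro p hpm hpirr
  have hsurj : Function.Surjective (IsLocalRing.residue A) := IsLocalRing.residue_surjective
  obtain ⟨P, hPmap, hPdeg, hPm⟩ :=
    Polynomial.lifts_and_natDegree_eq_and_monic
      ((Polynomial.mem_lifts p).mpr (Polynomial.map_surjective _ hsurj p)) hpm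
  have hpdeg : p.natDegree ≠ 0 := fun h =>
    hpirr.not_isUnit (by
      rw [Polynomial.Monic.isUnit_iff hpm]
      exact Polynomial.eq_one_of_monic_natDegree_zero hpm h)
  have hdeg : (P.map (algebraMap A L)).degree ≠ 0 := by
    intro h0
    have h1 : (P.map (algebraMap A L)).natDegree = 0 := Polynomial.natDegree_eq_zero_iff_degree_le_zero.mpr h0.le
    rw [hPm.natDegree_map] at h1
    exact hpdeg (hPdeg ▸ h1)
  obtain ⟨x, hx⟩ := IsAlgClosed.exists_root (P.map (algebraMap A L)) hdeg
  have hx' : Polynomial.eval₂ (algebraMap A L) x P = 0 := by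
    rw [← Polynomial.eval_map]; exact hx
  have hint : IsIntegral A x := ⟨P, hPm, hx'⟩
  obtain ⟨y, rfl⟩ := IsIntegrallyClosed.isIntegral_iff.mp hint
  refine ⟨IsLocalRing.residue A y, ?_⟩
  have hy : P.eval y = 0 := by
    have hinj : Function.Injective (algebraMap A L) := Subtype.val_injective
    apply hinj
    rw [map_zero, ← hx', Polynomial.eval₂_at_apply]
  rw [← hPmap, Polynomial.eval_map, Polynomial.eval₂_at_apply, hy, map_zero]

/-- If `A` lies over `ℓ`, then `ℓ = 0` in the residue field. -/
theorem natCast_residue_eq_zero (A : ValuationSubring L) {ℓ : ℕ} (hA : A.LiesOverPrime ℓ) :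
    ((ℓ : ℕ) : IsLocalRing.ResidueField A) = 0 := by
  have h : ((ℓ : A) : L) ∈ A.nonunits := by
    have h0 : (ℓ : L) ∈ A.nonunits := hA
    simpa using h0
  have h' : (ℓ : A) ∈ IsLocalRing.maximalIdeal A := (A.coe_mem_nonunits_iff).mp h
  have := (IsLocalRing.residue_eq_zero_iff (ℓ : A)).mpr h'
  simpa using this

/-- If `A` lies over the prime `ℓ` and `ℓ ∤ n`, then `n ≠ 0` in the residue field. -/
theorem natCast_residue_ne_zero (A : ValuationSubring L) {ℓ : ℕ} (hℓ : ℓ.Prime)
    (hA : A.LiesOverPrime ℓ) {n : ℕ} (hn : ¬ ℓ ∣ n) :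
    ((n : ℕ) : IsLocalRing.ResidueField A) ≠ 0 := by
  intro h0
  have hcop : Nat.Coprime n ℓ := ((Nat.Prime.coprime_iff_not_dvd hℓ).mpr hn).symm
  have hb := Nat.gcd_eq_gcd_ab n ℓ
  rw [hcop] at hb
  have := congrArg (Int.cast : ℤ → IsLocalRing.ResidueField A) hb
  push_cast at this
  rw [h0, natCast_residue_eq_zero A hA, zero_mul, zero_mul, add_zero] at this
  exact one_ne_zero this

end Fermat.Agent.S18.H905
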