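import Mathlib

/-!
# S18 / H905 — valuations on a function field: the chain lemma (Mathlib only, char-free)

`K ⊆ F` fields, `v` a valuation on `F` which is trivial on `K`, `x ∈ F` with `0 < v x < 1`.

* `exists_val_aeval_eq_pow`  : `v (p(x)) = (v x)^a` for every nonzero polynomial `p ∈ K[X]`;
* `exists_val_eq_zpow_of_mem_adjoin` : the value group of `K(x)` is generated by `v x`;
* `linearIndependent_of_val` : elements whose values lie in pairwise distinct cosets of `(v x)^ℤ`
  are linearly independent over `K(x)`;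
* `card_le_finrank_of_val_chain` : a family with pairwise distinct values in `[v x, 1)` has at most
  `[F : K(x)]` members (Stichtenoth, Algebraic function fields and codes, proof of Thm 1.1.6).
-/

set_option autoImplicit false

open Polynomial IntermediateField

namespace Fermat.Agent.S18.H905

variable {K F : Type*} [Field K] [Field F] [Algebra K F]
variable {Γ : Type*} [LinearOrderedCommGroupWithZero Γ] (v : Valuation F Γ)

/-- A valuation which is trivial on `K` takes values `≤ 1` on `K[x]` when `v x ≤ 1`. -/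
theorem val_aeval_le_one (hK : ∀ c : K, v (algebraMap K F c) ≤ 1) {x : F} (hx : v x ≤ 1)
    (p : K[X]) : v (aeval x p) ≤ 1 := by
  induction p using Polynomial.induction_on' with
  | add p q hp hq =>
    rw [map_add]
    exact v.map_add_le hp hq
  | monomial n a =>
    rw [aeval_monomial, map_mul, map_pow]
    exact mul_le_one' (hK a) (pow_le_one' hx n)

/-- `v (p(x)) = (v x)^a` for a nonzero polynomial `p` over `K`, if `v` is trivial on `K` and
`v x < 1`. -/
theorem exists_val_aeval_eq_pow (hK : ∀ c : K, c ≠ 0 → v (algebraMap K F c) = 1) {x : F}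
    (hx : v x < 1) {p : K[X]} (hp : p ≠ 0) : ∃ a : ℕ, v (aeval x p) = v x ^ a := by
  have hK' : ∀ c : K, v (algebraMap K F c) ≤ 1 := by
    intro c
    rcases eq_or_ne c 0 with rfl | hc
    · simp
    · exact (hK c hc).le
  obtain ⟨q, hpq, hq⟩ := Polynomial.exists_eq_pow_rootMultiplicity_mul_and_not_dvd p hp 0
  refine ⟨p.rootMultiplicity 0, ?_⟩
  have hq0 : q.coeff 0 ≠ 0 := by
    intro h0
    apply hq
    rw [map_zero, sub_zero]
    exact Polynomial.X_dvd_iff.mpr h0
  have hqv : v (aeval x q) = 1 := by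
    have hsplit : q = q.divX * X + C (q.coeff 0) := (Polynomial.divX_mul_X_add q).symm
    have h1 : aeval x q = aeval x q.divX * x + algebraMap K F (q.coeff 0) := by
      conv_lhs => rw [hsplit]
      simp
    rw [h1]
    have h2 : v (aeval x q.divX * x) < 1 := by
      rw [map_mul]
      calc v (aeval x q.divX) * v x ≤ 1 * v x :=
            mul_le_mul_left (val_aeval_le_one v hK' hx.le _) _
        _ = v x := one_mul _
        _ < 1 := hx
    have h3 : v (algebraMap K F (q.coeff 0)) = 1 := hK _ hq0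
    rw [v.map_add_eq_of_lt_right (by rw [h3]; exact h2), h3]
  conv_lhs => rw [hpq]
  rw [map_mul, map_pow, map_mul, map_pow, hqv, mul_one]
  simp

/-- A valuation with values `≤ 1` on `K` is trivial on `K`. -/
theorem val_algebraMap_eq_one_of_le (hK : ∀ c : K, v (algebraMap K F c) ≤ 1) (c : K) (hc : c ≠ 0) :
    v (algebraMap K F c) = 1 := by
  have h1 := hK c
  have h2 := hK c⁻¹
  rw [map_inv₀, map_inv₀] at h2
  have h0 : v (algebraMap K F c) ≠ 0 := (v.ne_zero_iff).mpr (by simpa using hc)
  refine le_antisymm h1 ?_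
  rwa [inv_le_one₀ (zero_lt_iff.mpr h0)] at h2

/-- If `v` is trivial on `K` then every nonzero `x` with `v x < 1` is transcendental over `K`. -/
theorem transcendental_of_val_lt_one (hK : ∀ c : K, c ≠ 0 → v (algebraMap K F c) = 1) {x : F}
    (hx0 : x ≠ 0) (hx : v x < 1) : Transcendental K x := by
  rintro ⟨p, hp, hpx⟩
  obtain ⟨a, ha⟩ := exists_val_aeval_eq_pow v hK hx hp
  rw [hpx, map_zero] at ha
  exact (v.ne_zero_iff).mpr hx0 (pow_eq_zero_iff (n := a + 1) (by omega) |>.mp (by
    rw [pow_succ, ← ha, zero_mul]))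

/-- The value group of `K(x)` is generated by `v x`. -/
theorem exists_val_eq_zpow_of_mem_adjoin (hK : ∀ c : K, c ≠ 0 → v (algebraMap K F c) = 1) {x : F}
    (hx0 : x ≠ 0) (hx : v x < 1) {e : F} (he : e ∈ K⟮x⟯) (he0 : e ≠ 0) :
    ∃ a : ℤ, v e = v x ^ a := by
  obtain ⟨r, s, rfl⟩ := (mem_adjoin_simple_iff K e).mp he
  have hr : aeval x r ≠ 0 := fun h => he0 (by rw [h, zero_div])
  have hs : aeval x s ≠ 0 := fun h => he0 (by rw [h, div_zero])
  have hr0 : r ≠ 0 := fun h => hr (by rw [h, map_zero])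
  have hs0 : s ≠ 0 := fun h => hs (by rw [h, map_zero])
  obtain ⟨a, ha⟩ := exists_val_aeval_eq_pow v hK hx hr0
  obtain ⟨b, hb⟩ := exists_val_aeval_eq_pow v hK hx hs0
  refine ⟨a - b, ?_⟩
  have hvx0 : v x ≠ 0 := (v.ne_zero_iff).mpr hx0
  rw [map_div₀, ha, hb, zpow_sub₀ hvx0, zpow_natCast, zpow_natCast]

/-- Elements whose values lie in pairwise distinct cosets of `(v x)^ℤ` are linearly independent
over `K(x)`. -/
theorem linearIndependent_of_val (hK : ∀ c : K, c ≠ 0 → v (algebraMap K F c) = 1) {x : F}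
    (hx0 : x ≠ 0) (hx : v x < 1) {ι : Type*} (y : ι → F) (hy0 : ∀ i, y i ≠ 0)
    (hy : ∀ i j, i ≠ j → ∀ a : ℤ, v (y i) ≠ v x ^ a * v (y j)) :
    LinearIndependent K⟮x⟯ y := by
  classical
  rw [linearIndependent_iff']
  intro s g hsum
  by_contra hne
  push Not at hne
  obtain ⟨i₀, hi₀s, hi₀⟩ := hne
  -- the nonzero terms
  set s' := s.filter (fun i => g i ≠ 0) with hs'
  have hs'ne : s'.Nonempty := ⟨i₀, Finset.mem_filter.mpr ⟨hi₀s, hi₀⟩⟩
  obtain ⟨j, hjs', hjmax⟩ := Finset.exists_max_image s' (fun i => v ((g i : F) * y i)) hs'ne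
  have hjs : j ∈ s := (Finset.mem_filter.mp hjs').1
  have hgj : g j ≠ 0 := (Finset.mem_filter.mp hjs').2
  have hgjF : (g j : F) ≠ 0 := fun h => hgj (Subtype.ext h)
  have hvx0 : v x ≠ 0 := (v.ne_zero_iff).mpr hx0
  have hlt : ∀ i ∈ s \ {j}, v ((g i : F) * y i) < v ((g j : F) * y j) := by
    intro i hi
    rw [Finset.mem_sdiff, Finset.mem_singleton] at hi
    obtain ⟨his, hij⟩ := hi
    by_cases hgi : g i = 0
    · rw [hgi]
      simp only [ZeroMemClass.coe_zero, zero_mul, map_zero]
      exact zero_lt_iff.mpr ((v.ne_zero_iff).mpr (mul_ne_zero hgjF (hy0 j)))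
    · have hgiF : (g i : F) ≠ 0 := fun h => hgi (Subtype.ext h)
      have hle := hjmax i (Finset.mem_filter.mpr ⟨his, hgi⟩)
      refine lt_of_le_of_ne hle ?_
      intro heq
      obtain ⟨a, ha⟩ := exists_val_eq_zpow_of_mem_adjoin v hK hx0 hx (g i).2 hgiF
      obtain ⟨b, hb⟩ := exists_val_eq_zpow_of_mem_adjoin v hK hx0 hx (g j).2 hgjF
      rw [map_mul, map_mul, ha, hb] at heq
      apply hy i j hij (b - a)
      have hxa : v x ^ a ≠ 0 := zpow_ne_zero _ hvx0
      rw [zpow_sub₀ hvx0]
      field_simp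
      rw [mul_comm, heq, mul_comm]
  have hval := v.map_sum_eq_of_lt hjs hlt
  have hsum' : ∑ i ∈ s, (g i : F) * y i = 0 := by
    have := hsum
    simpa [IntermediateField.smul_def] using this
  rw [hsum', map_zero] at hval
  exact (v.ne_zero_iff).mpr (mul_ne_zero hgjF (hy0 j)) hval.symm

/-- **Chain lemma.** A family with pairwise distinct values in `[v x, 1)` has at most
`[F : K(x)]` members. -/
theorem card_le_finrank_of_val_chain (hK : ∀ c : K, c ≠ 0 → v (algebraMap K F c) = 1) {x : F}
    (hx0 : x ≠ 0) (hx : v x < 1) [FiniteDimensional K⟮x⟯ F] {ι : Type*} [Fintype ι] (y : ι → F)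
    (hinj : Function.Injective fun i => v (y i)) (hlo : ∀ i, v x ≤ v (y i))
    (hhi : ∀ i, v (y i) < 1) : Fintype.card ι ≤ Module.finrank K⟮x⟯ F := by
  have hvx0 : v x ≠ 0 := (v.ne_zero_iff).mpr hx0
  have hy0 : ∀ i, y i ≠ 0 := fun i h => by
    have := hlo i
    rw [h, map_zero] at this
    exact hvx0 (le_antisymm this zero_le)
  have key : ∀ i j, i ≠ j → ∀ a : ℕ, v (y i) ≠ v x ^ a * v (y j) := by
    intro i j hij a h
    rcases Nat.eq_zero_or_pos a with rfl | ha
    · rw [pow_zero, one_mul] at h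
      exact hij (hinj h)
    · have h1 : v x ^ a ≤ v x := by
        calc v x ^ a = v x ^ (a - 1) * v x := by rw [← pow_succ, Nat.sub_add_cancel ha]
          _ ≤ 1 * v x := mul_le_mul_left (pow_le_one' hx.le _) _
          _ = v x := one_mul _
      have h2 : v (y i) < v x := by
        rw [h]
        calc v x ^ a * v (y j) < v x ^ a * 1 := by
              exact mul_lt_mul_of_pos_left (hhi j) (zero_lt_iff.mpr (pow_ne_zero _ hvx0))
          _ = v x ^ a := mul_one _
          _ ≤ v x := h1
      exact absurd (hlo i) (not_le.mpr h2)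
  have hli := linearIndependent_of_val v hK hx0 hx y hy0 (by
    intro i j hij a h
    rcases le_or_gt 0 a with ha | ha
    · obtain ⟨n, rfl⟩ := Int.eq_ofNat_of_zero_le ha
      rw [zpow_natCast] at h
      exact key i j hij n h
    · obtain ⟨n, hn⟩ := Int.eq_ofNat_of_zero_le (show 0 ≤ -a by omega)
      have ha' : a = -(n : ℤ) := by omega
      rw [ha', zpow_neg, zpow_natCast] at h
      apply key j i (Ne.symm hij) n
      rw [h, ← mul_assoc, mul_inv_cancel₀ (pow_ne_zero _ hvx0), one_mul])
  exact hli.fintype_card_le_finrank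

end Fermat.Agent.S18.H905
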