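import Mathlib
import Fermat.Prelude.Def_AlgebraicCurve_DivisorClassGroup
import Fermat.Agent.S24.FFFinite
import Fermat.Agent.S18.H905.ValChain

/-!
# S18 / H905 — existence of places, char-free (T2/T3 generic core)

`K ⊆ F` fields such that `F` is finite over `K(x)` for every transcendental `x`
(function field of one variable).  No hypothesis on the characteristic, no separability,
`K` arbitrary.

* `isPrincipalIdealRing_of_finite` : every valuation subring of `F` containing `K` is a PID
  (Stichtenoth Thm 1.1.6);
* `exists_place_ord_pos` : every transcendental `u` has a zero: a `Place` `v` with `0 < v.ord u`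
  (Chevalley + the previous item);
* `exists_place_ord_neg` : every transcendental `u` has a pole;
* `constOfOrdZero_of_finite` : for `K` algebraically closed, a function without zeros and poles is
  constant (shape of `H94.ConstOfOrdZero`).
-/

set_option autoImplicit false

open AlgebraicCurve IntermediateField Polynomial

namespace Fermat.Agent.S18.H905

variable {K F : Type*} [Field K] [Field F] [Algebra K F]

/-- The valuation of a valuation subring containing `K` is trivial on `K`. -/
theorem valuation_algebraMap_eq_one (O : ValuationSubring F)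
    (hK : ∀ c : K, algebraMap K F c ∈ O) (c : K) (hc : c ≠ 0) :
    O.valuation (algebraMap K F c) = 1 := by
  have h1 : O.valuation (algebraMap K F c) ≤ 1 := (O.valuation_le_one_iff _).mpr (hK c)
  have h2 : O.valuation (algebraMap K F c⁻¹) ≤ 1 := (O.valuation_le_one_iff _).mpr (hK c⁻¹)
  rw [map_inv₀, map_inv₀] at h2
  have h0 : O.valuation (algebraMap K F c) ≠ 0 :=
    (O.valuation.ne_zero_iff).mpr (by simpa using hc)
  refine le_antisymm h1 ?_
  rwa [inv_le_one₀ (zero_lt_iff.mpr h0)] at h2

/-- Nonzero nonunits of a valuation subring containing `K` are transcendental over `K`. -/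
theorem transcendental_of_mem_nonunits (O : ValuationSubring F)
    (hK : ∀ c : K, algebraMap K F c ∈ O) {x : F} (hx0 : x ≠ 0) (hx : x ∈ O.nonunits) :
    Transcendental K x := by
  rintro ⟨p, hp, hpx⟩
  have hlt : O.valuation x < 1 := (O.mem_nonunits_iff).mp hx
  obtain ⟨a, ha⟩ := exists_val_aeval_eq_pow O.valuation (valuation_algebraMap_eq_one O hK) hlt hp
  rw [hpx, map_zero] at ha
  exact (O.valuation.ne_zero_iff).mpr hx0 (pow_eq_zero_iff (n := a + 1) (by omega) |>.mp (by
    rw [pow_succ, ← ha, zero_mul]))

/-- **Stichtenoth 1.1.6 (ACC part).** In a function field, a valuation subring containing the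
constants has well-founded strict divisibility. -/
theorem wfDvdMonoid_of_finite (O : ValuationSubring F) (hK : ∀ c : K, algebraMap K F c ∈ O)
    (hfin : ∀ x : F, Transcendental K x → FiniteDimensional K⟮x⟯ F) : WfDvdMonoid O := by
  refine ⟨wellFounded_iff_isEmpty_descending_chain.mpr ⟨?_⟩⟩
  rintro ⟨f, hf⟩
  set v := O.valuation with hv
  -- strict monotonicity of the values
  have hstep : ∀ n, v (f n : F) < v (f (n + 1) : F) := by
    intro n
    obtain ⟨hne, c, hc, hfc⟩ := hf n
    have hcv : v (c : F) < 1 := by
      rcases O.valuation_lt_one_or_eq_one c with h | h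
      · exact h
      · exact absurd ((O.valuation_eq_one_iff c).mpr h) hc
    have hne' : v (f (n + 1) : F) ≠ 0 :=
      (v.ne_zero_iff).mpr (fun h => hne (Subtype.ext h))
    have : (f n : F) = (f (n + 1) : F) * (c : F) := by
      rw [hfc]; rfl
    rw [this, map_mul]
    calc v (f (n + 1) : F) * v (c : F) < v (f (n + 1) : F) * 1 :=
          mul_lt_mul_of_pos_left hcv (zero_lt_iff.mpr hne')
      _ = v (f (n + 1) : F) := mul_one _
  have hmono : StrictMono fun n => v (f n : F) := strictMono_nat_of_lt_succ hstep
  have hle1 : ∀ n, v (f n : F) ≤ 1 := fun n => (O.valuation_le_one_iff _).mpr (f n).2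
  have hlt1 : ∀ n, v (f n : F) < 1 := fun n => lt_of_lt_of_le (hstep n) (hle1 (n + 1))
  -- the base point `x = f 1`
  have hx0 : (f 1 : F) ≠ 0 := fun h => (hf 0).1 (Subtype.ext h)
  have hxn : (f 1 : F) ∈ O.nonunits := (O.mem_nonunits_iff).mpr (hlt1 1)
  have htr : Transcendental K (f 1 : F) := transcendental_of_mem_nonunits O hK hx0 hxn
  have := hfin _ htr
  set d := Module.finrank K⟮(f 1 : F)⟯ F with hd
  have hcard := card_le_finrank_of_val_chain v (valuation_algebraMap_eq_one O hK) hx0 (hlt1 1)
    (fun i : Fin (d + 1) => (f (i.1 + 1) : F))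
    (fun i j hij => by
      have := hmono.injective hij
      exact Fin.ext (by omega))
    (fun i => hmono.monotone (by omega))
    (fun i => hlt1 _)
  rw [Fintype.card_fin] at hcard
  omega

/-- **Stichtenoth 1.1.6.** In a function field, every valuation subring containing the constants
is a principal ideal ring. -/
theorem isPrincipalIdealRing_of_finite (O : ValuationSubring F)
    (hK : ∀ c : K, algebraMap K F c ∈ O)
    (hfin : ∀ x : F, Transcendental K x → FiniteDimensional K⟮x⟯ F) :
    IsPrincipalIdealRing O :=
  ((IsBezout.TFAE (R := O)).out 3 1).mp (wfDvdMonoid_of_finite O hK hfin)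

/-- A valuation subring containing `K` in which a given nonzero element is a nonunit yields a
place. -/
def placeOfValuationSubring (O : ValuationSubring F) (hK : ∀ c : K, algebraMap K F c ∈ O)
    (hfin : ∀ x : F, Transcendental K x → FiniteDimensional K⟮x⟯ F)
    {u : F} (hu0 : u ≠ 0) (hu : u ∈ O.nonunits) : Place K F where
  toValuationSubring := O
  algebraMap_mem' := hK
  ne_top' := by
    rintro rfl
    have h1 : (⊤ : ValuationSubring F).valuation u < 1 :=
      ((⊤ : ValuationSubring F).mem_nonunits_iff).mp hu
    have h2 : u⁻¹ ∈ (⊤ : ValuationSubring F) := ValuationSubring.mem_top _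
    have h3 := ((⊤ : ValuationSubring F).valuation_le_one_iff _).mpr h2
    rw [map_inv₀] at h3
    have h0 : (⊤ : ValuationSubring F).valuation u ≠ 0 :=
      (Valuation.ne_zero_iff _).mpr hu0
    rw [inv_le_one₀ (zero_lt_iff.mpr h0)] at h3
    exact absurd h1 (not_lt.mpr h3)
  isPrincipalIdealRing' := isPrincipalIdealRing_of_finite O hK hfin

/-- **Existence of zeros.** In a function field every transcendental element has a zero. -/
theorem exists_place_ord_pos
    (hfin : ∀ x : F, Transcendental K x → FiniteDimensional K⟮x⟯ F)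
    (u : F) (hu : Transcendental K u) : ∃ v : Place K F, 0 < v.ord u := by
  have hu0 : u ≠ 0 := by
    rintro rfl
    exact hu ⟨X, X_ne_zero, by simp⟩
  -- the subring `K[u]` and its ideal `(u)`
  let A : Subring F := (Algebra.adjoin K {u}).toSubring
  have huA : u ∈ A := Algebra.self_mem_adjoin_singleton K u
  let I : Ideal A := Ideal.span {⟨u, huA⟩}
  have hI : I ≠ ⊤ := by
    intro h
    rw [Ideal.span_singleton_eq_top] at h
    obtain ⟨⟨w, hw⟩, hw1⟩ := isUnit_iff_exists_inv.mp h
    have hw' : w ∈ Algebra.adjoin K {u} := hw
    rw [Algebra.adjoin_singleton_eq_range_aeval] at hw'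
    obtain ⟨p, rfl⟩ := hw'
    have h1 : u * aeval u p = 1 := congrArg Subtype.val hw1
    apply hu
    refine ⟨X * p - 1, ?_, by simp [h1]⟩
    intro h0
    have := congrArg (fun q : K[X] => q.coeff 0) h0
    simp at this
  obtain ⟨O, hAO, hIO⟩ := Ideal.image_subset_nonunits_valuationSubring I hI
  have hK : ∀ c : K, algebraMap K F c ∈ O := fun c =>
    hAO ((Algebra.adjoin K {u}).algebraMap_mem c)
  have huO : u ∈ O.nonunits :=
    hIO ⟨⟨u, huA⟩, Ideal.subset_span rfl, rfl⟩
  refine ⟨placeOfValuationSubring O hK hfin hu0 huO, ?_⟩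
  exact (Fermat.Agent.S24.FF.ord_pos_iff_mem_nonunits _ hu0).mpr huO

/-- **Existence of poles.** In a function field every transcendental element has a pole. -/
theorem exists_place_ord_neg
    (hfin : ∀ x : F, Transcendental K x → FiniteDimensional K⟮x⟯ F)
    (u : F) (hu : Transcendental K u) : ∃ v : Place K F, v.ord u < 0 := by
  have hinv : Transcendental K u⁻¹ := by
    intro h
    exact hu (by simpa using h.inv)
  obtain ⟨v, hv⟩ := exists_place_ord_pos hfin u⁻¹ hinv
  refine ⟨v, ?_⟩
  rw [v.ord_inv] at hv
  omega

/-- Finiteness over `K(x)` for one transcendental `x` gives it for all. -/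
theorem finite_of_finite {x : F} (hx : Transcendental K x) [FiniteDimensional K⟮x⟯ F] :
    ∀ y : F, Transcendental K y → FiniteDimensional K⟮y⟯ F := fun _ hy =>
  Fermat.Agent.S24.FF.finiteDimensional_adjoin_of_transcendental hx hy

/-- **CONST (char-free).** Over an algebraically closed constant field, a function without zeros
and poles is constant. -/
theorem constOfOrdZero_of_finite [IsAlgClosed K] {x : F} (hx : Transcendental K x)
    [FiniteDimensional K⟮x⟯ F] (u : F) (_hu0 : u ≠ 0) (hu : ∀ v : Place K F, v.ord u = 0) :
    ∃ c : K, u = algebraMap K F c := by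
  by_contra hne
  have hur : u ∉ (algebraMap K F).range := fun ⟨c, hc⟩ => hne ⟨c, hc.symm⟩
  have htr := Fermat.Agent.S24.FF.transcendental_of_not_mem_range hur
  obtain ⟨v, hv⟩ := exists_place_ord_pos (finite_of_finite hx) u htr
  rw [hu v] at hv
  exact lt_irrefl _ hv

end Fermat.Agent.S18.H905
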