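import Mathlib
import Fermat.Prelude.Def_ModularCurve_ReductionModL
import Fermat.Agent.S28.H988.Degree
import Fermat.Agent.S18.H905.PlaceExists
import Fermat.Agent.S18.H905.Residue

/-!
# S18 / H905 — T2 / T3: CONST for the modular function fields (any characteristic)

* `transcendental_jqModC`        : `j` is transcendental over `k` in `k((q))` (any field `k`);
* `finiteDimensional_fullC`      : `F_{N,k} = k(j(q^d) : d ∣ N)` is finite over `k(j)` when the primes
  dividing `N` are invertible in `k` (from helper988's unconditional degree formula, S28);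
* `exists_place_ord_pos_fullC`, `exists_place_ord_neg_fullC` : zeros and poles exist in `F_{N,k}`;
* `const_fullC`  (**T3**, `CONST_Fk`) : `k` algebraically closed ⇒ a function of `F_{N,k}` without
  zeros and poles is constant;
* `const_bar`    (**T2**, `CONST_F`)  : the same for `modularFunctionFieldBar N` over `ℚ̄`.

The statements `const_fullC`, `const_bar` are `H94.ConstOfOrdZero` unfolded.
-/

set_option autoImplicit false

noncomputable section

open AlgebraicCurve IntermediateField Polynomial ModularCurve

namespace Fermat.Agent.S18.H905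

section AnyField

variable (k : Type*) [Field k]

/-- The `X`-adic valuation of `k((q))` is `≤ 1` on constants. -/
theorem laurent_val_algebraMap_le_one (c : k) :
    (Valued.v : Valuation (LaurentSeries k) _) (algebraMap k (LaurentSeries k) c) ≤ 1 := by
  have h := (LaurentSeries.valuation_le_iff_coeff_lt_eq_zero (K := k) (D := 0)
    (f := algebraMap k (LaurentSeries k) c)).mpr (by
      intro n hn
      rw [algebraMap_laurentSeries_eq_single, HahnSeries.coeff_single_of_ne hn.ne])
  simpa using h

/-- `j = q⁻¹ + ⋯` is transcendental over `k`. -/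
theorem transcendental_jqModC : Transcendental k (jqModC k) := by
  set v : Valuation (LaurentSeries k) _ := Valued.v with hv
  have hK := val_algebraMap_eq_one_of_le v (laurent_val_algebraMap_le_one k)
  have hj0 : jqModC k ≠ 0 := jqModC_ne_zero_of_nontrivial k
  have hgt : 1 < v (jqModC k) := by
    rw [← not_le]
    intro hle
    have h := (LaurentSeries.valuation_le_iff_coeff_lt_eq_zero (K := k) (D := 0)
      (f := jqModC k)).mp (by simpa using hle) (-1) (by norm_num)
    rw [coeff_jqModC_neg_one] at h
    exact one_ne_zero h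
  have hinv : v (jqModC k)⁻¹ < 1 := by
    rw [map_inv₀]
    exact inv_lt_one_of_one_lt₀ hgt
  have htr := transcendental_of_val_lt_one v hK (inv_ne_zero hj0) hinv
  intro halg
  exact htr halg.inv

variable (N : ℕ) [NeZero N]

/-- `j` as an element of `F_{N,k}`. -/
def jC : ↥(modularFunctionFieldFullC k N) := ⟨jqModC k, jqModC_mem_full k N⟩

omit [NeZero N] in
theorem transcendental_jC : Transcendental k (jC k N) := by
  intro h
  exact transcendental_jqModC k
    ((isAlgebraic_algHom_iff (modularFunctionFieldFullC k N).val Subtype.val_injective).mpr h)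

omit [NeZero N] in
/-- `k(j)` inside `F_{N,k}` is the pull-back of `jField k ⊆ k((q))`. -/
theorem adjoin_jC_eq_comap :
    k⟮jC k N⟯ = (Fermat.Agent.S28.jField k).comap (modularFunctionFieldFullC k N).val := by
  have h1 : (k⟮jC k N⟯).map (modularFunctionFieldFullC k N).val = Fermat.Agent.S28.jField k := by
    rw [IntermediateField.adjoin_map, Set.image_singleton]
    rfl
  rw [← h1, IntermediateField.comap_map]

/-- `F_{N,k}` is finite over `k(j)` as soon as the primes dividing `N` are invertible in `k`. -/
theorem finiteDimensional_fullC (hchar : ∀ p : ℕ, p.Prime → p ∣ N → (p : k) ≠ 0) :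
    FiniteDimensional k⟮jC k N⟯ ↥(modularFunctionFieldFullC k N) := by
  have hdeg := Fermat.Agent.S28.H988.relfinrank_jField_full_eq k N (NeZero.ne N) hchar
  have hpos := Fermat.Agent.S28.H988.dedekindPsi_pos N (NeZero.ne N)
  have hfr : Module.finrank
      ↥((Fermat.Agent.S28.jField k).comap (modularFunctionFieldFullC k N).val)
      ↥(modularFunctionFieldFullC k N) = dedekindPsi N := by
    rw [IntermediateField.finrank_comap, IntermediateField.fieldRange_val, hdeg]
  have hfin : FiniteDimensional
      ↥((Fermat.Agent.S28.jField k).comap (modularFunctionFieldFullC k N).val)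
      ↥(modularFunctionFieldFullC k N) :=
    Module.finite_of_finrank_pos (by rw [hfr]; exact hpos)
  rw [adjoin_jC_eq_comap]
  exact hfin

/-- Finiteness of `F_{N,k}` over `k(x)` for every transcendental `x`. -/
theorem finite_fullC (hchar : ∀ p : ℕ, p.Prime → p ∣ N → (p : k) ≠ 0) :
    ∀ x : ↥(modularFunctionFieldFullC k N), Transcendental k x →
      FiniteDimensional k⟮x⟯ ↥(modularFunctionFieldFullC k N) :=
  haveI := finiteDimensional_fullC k N hchar
  finite_of_finite (transcendental_jC k N)

/-- Every non-algebraic function of `F_{N,k}` has a zero. -/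
theorem exists_place_ord_pos_fullC (hchar : ∀ p : ℕ, p.Prime → p ∣ N → (p : k) ≠ 0)
    (u : ↥(modularFunctionFieldFullC k N)) (hu : Transcendental k u) :
    ∃ v : Place k ↥(modularFunctionFieldFullC k N), 0 < v.ord u :=
  exists_place_ord_pos (finite_fullC k N hchar) u hu

/-- Every non-algebraic function of `F_{N,k}` has a pole. -/
theorem exists_place_ord_neg_fullC (hchar : ∀ p : ℕ, p.Prime → p ∣ N → (p : k) ≠ 0)
    (u : ↥(modularFunctionFieldFullC k N)) (hu : Transcendental k u) :
    ∃ v : Place k ↥(modularFunctionFieldFullC k N), v.ord u < 0 :=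
  exists_place_ord_neg (finite_fullC k N hchar) u hu

/-- **T3 = CONST_Fk.** For `k` algebraically closed with the primes of `N` invertible, a function
of `F_{N,k}` without zeros and poles is constant. -/
theorem const_fullC [IsAlgClosed k] (hchar : ∀ p : ℕ, p.Prime → p ∣ N → (p : k) ≠ 0)
    (u : ↥(modularFunctionFieldFullC k N)) (hu0 : u ≠ 0)
    (hu : ∀ v : Place k ↥(modularFunctionFieldFullC k N), v.ord u = 0) :
    ∃ c : k, u = algebraMap k ↥(modularFunctionFieldFullC k N) c :=
  haveI := finiteDimensional_fullC k N hchar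
  constOfOrdZero_of_finite (transcendental_jC k N) u hu0 hu

end AnyField

/-- **T2 = CONST_F.** A function of `modularFunctionFieldBar N` without zeros and poles is
constant. -/
theorem const_bar (N : ℕ) [NeZero N] (u : ↥(modularFunctionFieldBar N)) (hu0 : u ≠ 0)
    (hu : ∀ v : Place (AlgebraicClosure ℚ) ↥(modularFunctionFieldBar N), v.ord u = 0) :
    ∃ c : AlgebraicClosure ℚ, u = algebraMap (AlgebraicClosure ℚ) ↥(modularFunctionFieldBar N) c := by
  have key : ∀ (S : IntermediateField (AlgebraicClosure ℚ) (LaurentSeries (AlgebraicClosure ℚ))),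
      S = modularFunctionFieldFullC (AlgebraicClosure ℚ) N →
      ∀ u : ↥S, u ≠ 0 → (∀ v : Place (AlgebraicClosure ℚ) ↥S, v.ord u = 0) →
        ∃ c : AlgebraicClosure ℚ, u = algebraMap (AlgebraicClosure ℚ) ↥S c := by
    rintro S rfl u hu0 hu
    exact const_fullC (AlgebraicClosure ℚ) N
      (fun p hp _ => Fermat.Agent.S28.H988.natCast_ne_zero_bar hp.ne_zero) u hu0 hu
  exact key _ (Fermat.Agent.S28.H988.modularFunctionFieldBar_eq_fullC N) u hu0 hu

/-- The primes dividing `N` are invertible in the residue field of `A` when `A` lies over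
`ℓ ∤ N`. -/
theorem hchar_residue (N : ℕ) {ℓ : ℕ} [Fact ℓ.Prime] (hℓN : ¬ ℓ ∣ N)
    (A : ValuationSubring (AlgebraicClosure ℚ)) (hA : A.LiesOverPrime ℓ) :
    ∀ p : ℕ, p.Prime → p ∣ N → ((p : ℕ) : IsLocalRing.ResidueField A) ≠ 0 := fun _ _ hpN =>
  natCast_residue_ne_zero A (Fact.out : ℓ.Prime) hA (fun h => hℓN (h.trans hpN))

/-- **T3 = CONST_Fk for the residue field of `A`** (shape `H94.ConstOfOrdZero`). -/
theorem const_residue (N : ℕ) [NeZero N] {ℓ : ℕ} [Fact ℓ.Prime] (hℓN : ¬ ℓ ∣ N)
    (A : ValuationSubring (AlgebraicClosure ℚ)) (hA : A.LiesOverPrime ℓ)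
    (u : ↥(modularFunctionFieldFullC (IsLocalRing.ResidueField A) N)) (hu0 : u ≠ 0)
    (hu : ∀ v : Place (IsLocalRing.ResidueField A)
      ↥(modularFunctionFieldFullC (IsLocalRing.ResidueField A) N), v.ord u = 0) :
    ∃ c : IsLocalRing.ResidueField A,
      u = algebraMap (IsLocalRing.ResidueField A)
        ↥(modularFunctionFieldFullC (IsLocalRing.ResidueField A) N) c :=
  haveI := isAlgClosed_residueField A
  const_fullC (IsLocalRing.ResidueField A) N (hchar_residue N hℓN A hA) u hu0 hu

end Fermat.Agent.S18.H905
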