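import Mathlib
import Fermat.Agent.S18.Sq05.Spec
import Fermat.Agent.S18.H905.ConstInst

/-!
# S18 / H905 — the frozen statements of squad S18/S05 (`Sq05/Spec.lean`), exact types

`ext`, `constGeneric`, `resAlgClosed`, `resChar`, `modFinite`, `t3Generic`, `t3`, `t2`.
All sorry-free; char-free where stated.
-/

set_option autoImplicit false

noncomputable section

open AlgebraicCurve IntermediateField ModularCurve

namespace Fermat.Agent.S18.H905

/-- **FF.2 (EXT)**. -/
theorem ext : Sq05.ExtStatement := by
  intro K F _ _ _ u hu hfin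
  exact exists_place_ord_pos (finite_of_finite hu) u hu

/-- **FF.3 (CONST, generic)**. -/
theorem constGeneric : Sq05.ConstGenericStatement := by
  intro K F _ _ _ _ x hx hfin u hu0 hu
  exact constOfOrdZero_of_finite hx u hu0 hu

/-- **RES.1**. -/
theorem resAlgClosed : Sq05.ResAlgClosedStatement := by
  intro L _ _ A
  exact isAlgClosed_residueField A

/-- **RES.2**. -/
theorem resChar : Sq05.ResCharStatement := by
  intro L _ A ℓ p hℓ hp hA hpℓ
  exact natCast_residue_ne_zero A hℓ hA
    (fun h => hpℓ ((Nat.prime_dvd_prime_iff_eq hℓ hp).mp h).symm)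

/-- **MOD.1**. -/
theorem modFinite : Sq05.ModFiniteStatement := by
  intro k _ N _ hchar
  exact ⟨transcendental_jC k N, finiteDimensional_fullC k N hchar⟩

/-- **T3 (generic field)**. -/
theorem t3Generic : Sq05.T3GenericStatement :=
  Sq05.t3Generic_of_pieces constGeneric modFinite

/-- **T3**. -/
theorem t3 : Sq05.T3Statement :=
  Sq05.t3_of_pieces t3Generic resAlgClosed resChar

/-- **T2**. -/
theorem t2 : Sq05.T2Statement := by
  intro N _ u hu0 hu
  exact const_bar N u hu0 hu

end Fermat.Agent.S18.H905
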